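import Mathlib
import Fermat.Agent.LT.T6.H116.InstSplit
import Fermat.Agent.LT.T7.H600.IotaTop

/-!
# Row LT, tower T7, leaf T7.L2.1.C2.4.4 `H600.IotaOntoC600` (helper453)

OFF-MAIN.  Registry row 2551.  Spec: `T7/H600/IotaTop.lean` of helper600 (sha256 59f950efa88d4d99,
origin/helper600@6643f774f) with its closure; assets `T6/H267/InstExt.lean` (helper267: `locIncl`,
`locAut`, `fixed_mem_range`) and `T6/H116/InstSplit.lean` (helper116: density of `K` in `K'_w` at a
place of ramification index and residue degree one); byte-identical copies.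

    iotaOntoC453 K K' : H600.IotaOntoC600 K K'

i.e. (from `H305.SigmaLocC305 K'`, `IsCompData D`, `IsCycExt K K' D.l`, `TotCplx K`) every adele
`y` of `K'` with `σ_𝔸 y = y` is `iota600 K K' x` for an adele `x` of `K`.

## Proof

* `exists_gen453`: `σ` is an automorphism of `K'` over `K` of order `l = [K' : K]`, so it
  generates the Galois group.
* `unique_or_split453` (fundamental identity for Galois extensions, `l` prime): a place `w` of
  `K'` is the only place over `v = w ∩ K`, or `e = f = 1`.
* LOCAL, one place above (`fixed_mem_range_locB453`): the local automorphism `s_w` of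
  `SigmaLocC305` is `T6.H267.locAut` (density of `K'`, continuity), and the fixed points of
  `locAut` are in the range of the local inclusion (`T6.H267.fixed_mem_range`).
* LOCAL, `e = f = 1` (`locB_surjective453`): `K` is dense in `K'_w` (`T6.H116.dense_h116`) and the
  range of the local inclusion is closed, so the local inclusion is onto.
* INFINITE places (`exists_goodInf453`): `K` is totally complex, the completions are `ℂ`.
* GLUE (`GoodFin453`, `GoodInf453`, cast-free: "EVERY continuous extension of `K → K'` maps `a` to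
  the component of `y`"): the property passes from `w` to `σ w` (`goodFin_step453`,
  `goodInf_step453`, by `SigmaLocC305` and `σ_𝔸 y = y`), and the Galois group permutes the places
  over `v` transitively (`exists_iterate_eq453`, `exists_iterate_inf453`).
* `x_v` is integral where `y_w` is (`locB600_mem_integers_iff`), so `x` is an adele.
-/

set_option autoImplicit false
set_option linter.unusedSectionVars false
set_option linter.unusedVariables false
set_option linter.style.haveILetI false

open IsDedekindDomain NumberField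

noncomputable section

namespace Fermat.Agent.LT.T7.H453

open Fermat.Agent.LT.H556 Fermat.Agent.LT.H556.A0 Fermat.Agent.LT.T7 Fermat.Agent.LT.T6.H267
open Fermat.Agent.LT.T7.H600
open scoped ComplexConjugate WithZero

variable {K K' : Type} [Field K] [NumberField K] [Field K'] [NumberField K'] [Algebra K K']

/-- Every finite place of `K` has a place of `K'` above it. -/
theorem exists_below_eq453 (v : HeightOneSpectrum (𝓞 K)) :
    ∃ w : HeightOneSpectrum (𝓞 K'), below600 K K' w = v := by
  have hmax : v.asIdeal.IsMaximal := v.isMaximal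
  obtain ⟨P, hP, hPo⟩ := Ideal.exists_maximal_ideal_liesOver_of_isIntegral (S := 𝓞 K') v.asIdeal
  have hne : P ≠ ⊥ := by
    rintro rfl
    apply v.ne_bot
    rw [hPo.over, eq_bot_iff]
    intro x hx
    rw [Ideal.under_def, Ideal.mem_comap, Ideal.mem_bot] at hx
    rw [Ideal.mem_bot]
    exact FaithfulSMul.algebraMap_injective (𝓞 K) (𝓞 K') (by rw [hx, map_zero])
  refine ⟨⟨P, hP.isPrime, hne⟩, ?_⟩
  ext x
  rw [mem_below600]
  show _ ↔ x ∈ v.asIdeal
  rw [hPo.over]
  rfl

/-- In a Galois extension of prime degree a place of `K'` is the only place over the place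
below, or it has ramification index and residue degree one. -/
theorem unique_or_split453 [IsGalois K K'] (hl : (Module.finrank K K').Prime)
    (w : HeightOneSpectrum (𝓞 K')) :
    (∀ w' : HeightOneSpectrum (𝓞 K'), below600 K K' w' = below600 K K' w → w' = w) ∨
      ((below600 K K' w).asIdeal.ramificationIdx' w.asIdeal = 1 ∧
        (below600 K K' w).asIdeal.inertiaDeg' w.asIdeal = 1) := by
  have hmax : (below600 K K' w).asIdeal.IsMaximal := (below600 K K' w).isMaximal
  have hwmax : w.asIdeal.IsMaximal := w.isMaximal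
  have hfund := Ideal.ncard_primesOver_mul_ramificationIdxIn_mul_inertiaDegIn
    (below600 K K' w).asIdeal (𝓞 K') (K' ≃ₐ[K] K')
  rw [IsGalois.card_aut_eq_finrank] at hfund
  have hw : w.asIdeal ∈ (below600 K K' w).asIdeal.primesOver (𝓞 K') :=
    ⟨w.isPrime, inferInstance⟩
  have hdvd : ((below600 K K' w).asIdeal.primesOver (𝓞 K')).ncard ∣ Module.finrank K K' :=
    Dvd.intro _ hfund
  rcases (Nat.dvd_prime hl).mp hdvd with h1 | h1
  · left
    intro w' hw'
    obtain ⟨P, hP⟩ := Set.ncard_eq_one.mp h1
    have e1 : w.asIdeal = P := by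
      have := hw
      rw [hP] at this
      exact this
    have hw'' : w'.asIdeal ∈ (below600 K K' w).asIdeal.primesOver (𝓞 K') := by
      refine ⟨w'.isPrime, ⟨?_⟩⟩
      rw [← hw']
      rfl
    rw [hP] at hw''
    have e2 : w'.asIdeal = P := hw''
    exact HeightOneSpectrum.ext (e2.trans e1.symm)
  · right
    rw [h1] at hfund
    have hef : Ideal.ramificationIdxIn (below600 K K' w).asIdeal (𝓞 K') *
        Ideal.inertiaDegIn (below600 K K' w).asIdeal (𝓞 K') = 1 := by
      have hpos : 0 < Module.finrank K K' := hl.pos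
      exact Nat.eq_of_mul_eq_mul_left hpos (by rw [hfund, mul_one])
    obtain ⟨he, hf⟩ := mul_eq_one.mp hef
    rw [Ideal.ramificationIdxIn_eq_ramificationIdx (below600 K K' w).asIdeal w.asIdeal
      (K' ≃ₐ[K] K')] at he
    rw [Ideal.inertiaDegIn_eq_inertiaDeg (below600 K K' w).asIdeal w.asIdeal
      (K' ≃ₐ[K] K')] at hf
    refine ⟨?_, ?_⟩
    · rw [Ideal.ramificationIdx'_eq_ramificationIdx (below600 K K' w).asIdeal w.asIdeal
        (below600 K K' w).ne_bot]
      exact he
    · rw [Ideal.inertiaDeg'_eq_inertiaDeg (below600 K K' w).asIdeal w.asIdeal]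
      exact hf

/-! ## Local facts at a finite place -/

/-- An additive map of valued fields (surjective valuations in `ℤᵐ⁰`) which preserves the
valuation is continuous. -/
theorem continuous_of_valued_eq453 {A B : Type} [Field A] [Field B] [Valued A ℤᵐ⁰]
    [Valued B ℤᵐ⁰]
    (hsA : Function.Surjective (Valued.v : A → ℤᵐ⁰))
    (hsB : Function.Surjective (Valued.v : B → ℤᵐ⁰))
    (f : A → B) (hsub : ∀ x y : A, f x - f y = f (x - y))
    (hf : ∀ x : A, Valued.v (f x) = Valued.v x) : Continuous f := by
  have hu : UniformContinuous f := by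
    rw [UniformContinuous, (T6.H116.unif_basis_h116 A hsA).tendsto_iff
      (T6.H116.unif_basis_h116 B hsB)]
    intro γ hγ
    refine ⟨γ, hγ, fun p hp => ?_⟩
    show Valued.v (f p.2 - f p.1) < γ
    rw [hsub, hf]
    exact hp
  exact hu.continuous

/-- Two continuous ring homomorphisms on `K_v` which agree on `K` are equal. -/
theorem eq_of_eq_on_K453 {B : Type} [TopologicalSpace B] [T2Space B] [Semiring B]
    (v : HeightOneSpectrum (𝓞 K)) (i j : v.adicCompletion K →+* B) (hi : Continuous i)
    (hj : Continuous j)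
    (h : ∀ k : K, i (algebraMap K (v.adicCompletion K) k) = j (algebraMap K (v.adicCompletion K) k))
    (a : v.adicCompletion K) : i a = j a := by
  have e : (⇑i : v.adicCompletion K → B) = ⇑j :=
    (HeightOneSpectrum.denseRange_algebraMap K v).equalizer hi hj (funext fun k => h k)
  exact congrFun e a

/-- At a place of ramification index and residue degree one the local inclusion is onto. -/
theorem locB_surjective453 (w : HeightOneSpectrum (𝓞 K'))
    (he : (below600 K K' w).asIdeal.ramificationIdx' w.asIdeal = 1)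
    (hf : (below600 K K' w).asIdeal.inertiaDeg' w.asIdeal = 1) :
    Function.Surjective (locB600 K K' w) := by
  have hvw : ∀ x : 𝓞 K, x ∈ (below600 K K' w).asIdeal ↔
      algebraMap (𝓞 K) (𝓞 K') x ∈ w.asIdeal := fun x => mem_below600 w x
  have hN : Ideal.absNorm w.asIdeal = Ideal.absNorm (below600 K K' w).asIdeal := by
    have h := absNorm_eq_pow_inertia (below600 K K' w) w
    rw [hf, pow_one] at h
    exact h
  have hle : Ideal.map (algebraMap (𝓞 K) (𝓞 K')) (below600 K K' w).asIdeal ≤ w.asIdeal := by
    rw [Ideal.map_le_iff_le_comap]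
    intro x hx
    exact (hvw x).1 hx
  have hπ : ∃ x : 𝓞 K, x ∈ (below600 K K' w).asIdeal ∧
      algebraMap (𝓞 K) (𝓞 K') x ∉ w.asIdeal ^ 2 := by
    by_contra hcon
    have h2 : Ideal.map (algebraMap (𝓞 K) (𝓞 K')) (below600 K K' w).asIdeal
        ≤ w.asIdeal ^ 2 := by
      rw [Ideal.map_le_iff_le_comap]
      intro x hx
      by_contra hx2
      exact hcon ⟨x, hx, hx2⟩
    exact ((Ideal.ramificationIdx'_ne_one_iff hle).2 h2) he
  obtain ⟨p, hp⟩ := T6.H116.unif_h116 (below600 K K' w) w hvw hπ
  have happ : ∀ (y : K') (γ : ℤᵐ⁰), γ ≠ 0 →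
      ∃ x : K, w.valuation K' (y - algebraMap K K' x) < γ :=
    T6.H116.approx_h116 (w.valuation K') p hp
      (T6.H116.res_approx_h116 (below600 K K' w) w hvw hN)
  have hd := T6.H116.dense_h116 (K := K) w happ
  intro z
  have hcl : IsClosed (Set.range (locB600 K K' w)) :=
    isClosed_range_locIncl (below600 K K' w) w
  have hsub : Set.range ((algebraMap K' (w.adicCompletion K')).comp (algebraMap K K'))
      ⊆ Set.range (locB600 K K' w) := by
    rintro _ ⟨k, rfl⟩
    exact ⟨algebraMap K _ k, locB600_algebraMap w k⟩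
  have hz : z ∈ closure (Set.range
      ((algebraMap K' (w.adicCompletion K')).comp (algebraMap K K'))) := hd z
  exact hcl.closure_subset_iff.mpr hsub hz

/-! ## The generator of the Galois group -/

theorem algEquiv_pow_apply453 (s : K' ≃ₐ[K] K') (σ : K' ≃+* K') (h : ∀ x : K', s x = σ x)
    (n : ℕ) (x : K') : (s ^ n) x = (σ ^ n) x := by
  induction n generalizing x with
  | zero => rw [pow_zero, pow_zero, AlgEquiv.one_apply, RingAut.one_apply]
  | succ n ih => rw [pow_succ, pow_succ, AlgEquiv.mul_apply, RingAut.mul_apply, h, ih]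

/-- The generator `σ` of the comparison data is an automorphism of `K'` over `K` which generates
the Galois group. -/
theorem exists_gen453 (D : CompData K K') (hD : IsCompData D) (hcyc : IsCycExt K K' D.l) :
    ∃ s : K' ≃ₐ[K] K', (∀ x : K', s x = D.s.σ x) ∧
      ∀ t : K' ≃ₐ[K] K', t ∈ Subgroup.zpowers s := by
  have hfix : ∀ k : K, D.s.σ (algebraMap K K' k) = algebraMap K K' k := fun k =>
    (hD.cyc.fixed _).1 ((hD.base _).2 ⟨k, rfl⟩)
  let s : K' ≃ₐ[K] K' := AlgEquiv.ofRingEquiv (f := D.s.σ) hfix
  have hs : ∀ x : K', s x = D.s.σ x := fun x => rfl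
  refine ⟨s, hs, ?_⟩
  haveI := hcyc.galois
  haveI : Fact D.l.Prime := ⟨hcyc.prime⟩
  have hpow : s ^ D.l = 1 := by
    ext x
    rw [algEquiv_pow_apply453 s D.s.σ hs, AlgEquiv.one_apply]
    exact hD.cyc.pow_eq x
  have hne : s ≠ 1 := by
    intro h1
    obtain ⟨x, hx⟩ := hD.cyc.faithful 1 Nat.one_pos hcyc.prime.one_lt
    apply hx
    rw [pow_one, ← hs, h1, AlgEquiv.one_apply]
  have hord : orderOf s = D.l := orderOf_eq_prime hpow hne
  have hcard : Nat.card (Subgroup.zpowers s) = Nat.card (K' ≃ₐ[K] K') := by
    rw [Nat.card_zpowers, hord, IsGalois.card_aut_eq_finrank, hcyc.degree]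
  have htop : Subgroup.zpowers s = ⊤ := Subgroup.eq_top_of_card_eq _ hcard
  intro t
  rw [htop]
  exact Subgroup.mem_top t

/-- Every element of the Galois group is a natural power of the generator. -/
theorem exists_pow_eq453 [IsGalois K K'] (s : K' ≃ₐ[K] K')
    (hgen : ∀ t : K' ≃ₐ[K] K', t ∈ Subgroup.zpowers s) (t : K' ≃ₐ[K] K') :
    ∃ n : ℕ, s ^ n = t := by
  have h := hgen t
  rw [← mem_powers_iff_mem_zpowers] at h
  exact h

/-! ## Fixed points at a place with one place above -/

theorem fixed_mem_range_locB453 [IsGalois K K'] (s : K' ≃ₐ[K] K')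
    (hgen : ∀ t : K' ≃ₐ[K] K', t ∈ Subgroup.zpowers s) (w : HeightOneSpectrum (𝓞 K'))
    (huniq : ∀ w' : HeightOneSpectrum (𝓞 K'), below600 K K' w' = below600 K K' w → w' = w)
    (sw : w.adicCompletion K' ≃+* w.adicCompletion K')
    (hsw : ∀ x : K', sw (algebraMap K' (w.adicCompletion K') x)
      = algebraMap K' (w.adicCompletion K') (s x))
    (hval : ∀ x : w.adicCompletion K', Valued.v (sw x) = Valued.v x)
    (y : w.adicCompletion K') (hy : sw y = y) :
    ∃ a : (below600 K K' w).adicCompletion K, locB600 K K' w a = y := by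
  have hvw : ∀ x : 𝓞 K, x ∈ (below600 K K' w).asIdeal ↔
      algebraMap (𝓞 K) (𝓞 K') x ∈ w.asIdeal := fun x => mem_below600 w x
  have huniq' : ∀ w' : HeightOneSpectrum (𝓞 K'),
      (∀ x : 𝓞 K, x ∈ (below600 K K' w).asIdeal → algebraMap (𝓞 K) (𝓞 K') x ∈ w'.asIdeal) →
        w' = w := by
    intro w' hw'
    apply huniq
    apply HeightOneSpectrum.ext
    have hle : (below600 K K' w).asIdeal ≤ (below600 K K' w').asIdeal := fun x hx =>
      (mem_below600 w' x).2 (hw' x hx)
    exact ((below600 K K' w).isMaximal.eq_of_le (below600 K K' w').isPrime.ne_top hle).symm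
  have hσ := valuation_aut_eq (below600 K K' w) w s hvw huniq'
  have hc : Continuous sw :=
    continuous_of_valued_eq453 (HeightOneSpectrum.valuedAdicCompletion_surjective K' w)
      (HeightOneSpectrum.valuedAdicCompletion_surjective K' w) (⇑sw)
      (fun x y => (map_sub sw x y).symm) hval
  have e : (⇑(locAut w (s : K' ≃+* K') hσ) : w.adicCompletion K' → w.adicCompletion K') = ⇑sw := by
    refine (HeightOneSpectrum.denseRange_algebraMap K' w).equalizer
      (continuous_locAut w _ hσ) hc (funext fun k => ?_)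
    simp only [Function.comp_apply]
    rw [locAut_algebraMap, hsw]
    rfl
  have hloc : locAut w (s : K' ≃+* K') hσ y = y := by
    rw [e]
    exact hy
  exact fixed_mem_range s (below600 K K' w) w hσ hgen y hloc

/-! ## The Galois group permutes the places over a place of `K` transitively -/

open scoped Pointwise in
/-- The pointwise action of the Galois group on the ideals of `𝓞 K'`. -/
theorem smul_ideal_eq_map453 (t : K' ≃ₐ[K] K') (P : Ideal (𝓞 K')) :
    t • P = Ideal.map (RingOfIntegers.mapRingEquiv (t : K' ≃+* K')) P := by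
  have hinv : ∀ z : 𝓞 K', t⁻¹ • (RingOfIntegers.mapRingEquiv (t : K' ≃+* K') z) = z := by
    intro z
    apply RingOfIntegers.ext
    show t⁻¹ (t (z : K')) = (z : K')
    exact t.symm_apply_apply _
  have hinv' : ∀ x : 𝓞 K', RingOfIntegers.mapRingEquiv (t : K' ≃+* K') (t⁻¹ • x) = x := by
    intro x
    apply RingOfIntegers.ext
    show t (t⁻¹ (x : K')) = (x : K')
    exact t.apply_symm_apply _
  apply le_antisymm
  · intro x hx
    rw [Ideal.mem_pointwise_smul_iff_inv_smul_mem] at hx
    have := Ideal.mem_map_of_mem (RingOfIntegers.mapRingEquiv (t : K' ≃+* K')) hx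
    rwa [hinv'] at this
  · rw [Ideal.map_le_iff_le_comap]
    intro z hz
    rw [Ideal.mem_comap, Ideal.mem_pointwise_smul_iff_inv_smul_mem, hinv]
    exact hz

/-- The image of a place under an automorphism. -/
theorem exists_place_map453 (σ : K' ≃+* K') (w : HeightOneSpectrum (𝓞 K')) :
    ∃ w₁ : HeightOneSpectrum (𝓞 K'),
      w₁.asIdeal = Ideal.map (RingOfIntegers.mapRingEquiv σ) w.asIdeal := by
  have hp : (Ideal.map (RingOfIntegers.mapRingEquiv σ) w.asIdeal).IsPrime :=
    Ideal.map_isPrime_of_equiv (RingOfIntegers.mapRingEquiv σ)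
  have hne : Ideal.map (RingOfIntegers.mapRingEquiv σ) w.asIdeal ≠ ⊥ := by
    intro h
    apply w.ne_bot
    rw [eq_bot_iff]
    intro x hx
    have h1 : RingOfIntegers.mapRingEquiv σ x ∈
        Ideal.map (RingOfIntegers.mapRingEquiv σ) w.asIdeal := Ideal.mem_map_of_mem _ hx
    rw [h, Ideal.mem_bot] at h1
    rw [Ideal.mem_bot]
    exact (RingOfIntegers.mapRingEquiv σ).injective (by rw [h1, map_zero])
  exact ⟨⟨_, hp, hne⟩, rfl⟩

open scoped Pointwise in
/-- Two places of `K'` over the same place of `K` are linked by an iterate of `σ`. -/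
theorem exists_iterate_eq453 [IsGalois K K'] (s : K' ≃ₐ[K] K') (σ : K' ≃+* K')
    (hs : ∀ x : K', s x = σ x) (hgen : ∀ t : K' ≃ₐ[K] K', t ∈ Subgroup.zpowers s)
    (w w' : HeightOneSpectrum (𝓞 K')) (h : below600 K K' w' = below600 K K' w) :
    ∃ n : ℕ, w'.asIdeal
      = (fun I : Ideal (𝓞 K') => Ideal.map (RingOfIntegers.mapRingEquiv σ) I)^[n] w.asIdeal := by
  have hσ : (s : K' ≃+* K') = σ := RingEquiv.ext hs
  have hunder : w.asIdeal.under (𝓞 K) = w'.asIdeal.under (𝓞 K) :=
    (congrArg HeightOneSpectrum.asIdeal h).symm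
  obtain ⟨t, ht⟩ := Algebra.IsInvariant.exists_smul_of_under_eq (𝓞 K) (𝓞 K') (K' ≃ₐ[K] K')
    w.asIdeal w'.asIdeal hunder
  obtain ⟨n, rfl⟩ := exists_pow_eq453 s hgen t
  refine ⟨n, ?_⟩
  rw [ht]
  clear ht hunder h
  induction n with
  | zero => rw [pow_zero, one_smul, Function.iterate_zero, id]
  | succ n ih =>
    rw [pow_succ', mul_smul, Function.iterate_succ_apply', ← ih, smul_ideal_eq_map453, hσ]

/-! ## The finite places: the common preimage -/

/-- `a ∈ K_v` is mapped to the component of `y` at `w` by the continuous extension of `K → K'`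
to `K_v → K'_w` (by EVERY continuous extension: there is at most one). -/
def GoodFin453 (y : Adl K') (v : HeightOneSpectrum (𝓞 K)) (a : v.adicCompletion K)
    (w : HeightOneSpectrum (𝓞 K')) : Prop :=
  ∀ i : v.adicCompletion K →+* w.adicCompletion K', Continuous i →
    (∀ k : K, i (algebraMap K (v.adicCompletion K) k)
      = algebraMap K' (w.adicCompletion K') (algebraMap K K' k)) →
    i a = T5.finHom w y

theorem goodFin_of_locB453 (y : Adl K') (w : HeightOneSpectrum (𝓞 K'))
    (a : (below600 K K' w).adicCompletion K) (h : locB600 K K' w a = T5.finHom w y) :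
    GoodFin453 y (below600 K K' w) a w := by
  intro i hi hiK
  rw [← h]
  exact eq_of_eq_on_K453 (below600 K K' w) i (locB600 K K' w) hi (continuous_locB600 w)
    (fun k => by rw [hiK, locB600_algebraMap]) a

theorem locB_of_goodFin453 (y : Adl K') (w : HeightOneSpectrum (𝓞 K'))
    (a : (below600 K K' w).adicCompletion K) (h : GoodFin453 y (below600 K K' w) a w) :
    locB600 K K' w a = T5.finHom w y :=
  h (locB600 K K' w) (continuous_locB600 w) (fun k => locB600_algebraMap w k)

/-- `σ` fixes the image of `K`. -/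
theorem sigma_fix453 (D : CompData K K') (hD : IsCompData D) (k : K) :
    D.s.σ (algebraMap K K' k) = algebraMap K K' k :=
  (hD.cyc.fixed _).1 ((hD.base _).2 ⟨k, rfl⟩)

/-- One step: from `w` to `σ w`. -/
theorem goodFin_step453 (hS : H305.SigmaLocC305 K') (D : CompData K K') (hD : IsCompData D)
    (y : Adl K') (hy : D.s.σA y = y) (v : HeightOneSpectrum (𝓞 K)) (a : v.adicCompletion K)
    (w w' : HeightOneSpectrum (𝓞 K')) (hrel : T5.PlaceRel D.s w w')
    (hg : GoodFin453 y v a w) : GoodFin453 y v a w' := by
  obtain ⟨sw, hsw, hval, hfin⟩ := (hS D.s).1 w w' hrel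
  intro i' hi' hi'K
  have hvalsymm : ∀ x : w'.adicCompletion K', Valued.v (sw.symm x) = Valued.v x := by
    intro x
    have := hval (sw.symm x)
    rw [RingEquiv.apply_symm_apply] at this
    exact this.symm
  have hcs : Continuous sw.symm :=
    continuous_of_valued_eq453 (HeightOneSpectrum.valuedAdicCompletion_surjective K' w')
      (HeightOneSpectrum.valuedAdicCompletion_surjective K' w) (⇑sw.symm)
      (fun x y => (map_sub sw.symm x y).symm) hvalsymm
  have hsymmK : ∀ k : K, sw.symm (algebraMap K' (w'.adicCompletion K') (algebraMap K K' k))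
      = algebraMap K' (w.adicCompletion K') (algebraMap K K' k) := by
    intro k
    rw [RingEquiv.symm_apply_eq, hsw, sigma_fix453 D hD]
  have key := hg ((sw.symm : w'.adicCompletion K' →+* w.adicCompletion K').comp i')
    (hcs.comp hi') (fun k => by
      rw [RingHom.comp_apply, hi'K]
      exact hsymmK k)
  rw [RingHom.comp_apply] at key
  have key2 : i' a = sw (T5.finHom w y) := by
    rw [← key]
    exact (sw.apply_symm_apply _).symm
  rw [key2, ← hfin, hy]

/-- The place below `σ w` is the place below `w`. -/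
theorem below_map453 (D : CompData K K') (hD : IsCompData D) (w w₁ : HeightOneSpectrum (𝓞 K'))
    (h : w₁.asIdeal = Ideal.map (RingOfIntegers.mapRingEquiv D.s.σ) w.asIdeal) :
    below600 K K' w₁ = below600 K K' w := by
  have hfix : ∀ x : 𝓞 K, RingOfIntegers.mapRingEquiv D.s.σ (algebraMap (𝓞 K) (𝓞 K') x)
      = algebraMap (𝓞 K) (𝓞 K') x := by
    intro x
    apply RingOfIntegers.ext
    show D.s.σ (algebraMap K K' (x : K)) = algebraMap K K' (x : K)
    exact sigma_fix453 D hD _
  apply HeightOneSpectrum.ext
  ext x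
  rw [mem_below600, mem_below600, h]
  constructor
  · intro hx
    obtain ⟨z, hz, hzx⟩ := (Ideal.mem_map_of_equiv _ _).1 hx
    rw [← hfix x] at hzx
    rw [← (RingOfIntegers.mapRingEquiv D.s.σ).injective hzx]
    exact hz
  · intro hx
    rw [← hfix x]
    exact Ideal.mem_map_of_mem _ hx

/-- The base case: the component of a fixed adele at `w` comes from `K_v`. -/
theorem exists_goodFin453 (hS : H305.SigmaLocC305 K') (D : CompData K K') (hD : IsCompData D)
    (hcyc : IsCycExt K K' D.l) (y : Adl K') (hy : D.s.σA y = y)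
    (w : HeightOneSpectrum (𝓞 K')) :
    ∃ a : (below600 K K' w).adicCompletion K, GoodFin453 y (below600 K K' w) a w := by
  obtain ⟨s, hs, hgen⟩ := exists_gen453 D hD hcyc
  have hgal : IsGalois K K' := hcyc.galois
  have hl : (Module.finrank K K').Prime := by
    rw [hcyc.degree]
    exact hcyc.prime
  rcases unique_or_split453 hl w with huniq | ⟨he, hf⟩
  · obtain ⟨w₁, hw₁⟩ := exists_place_map453 D.s.σ w
    have hw₁w : w₁ = w := huniq w₁ (below_map453 D hD w w₁ hw₁)
    have hrel : T5.PlaceRel D.s w w := by
      rw [hw₁w] at hw₁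
      exact hw₁
    obtain ⟨sw, hsw, hval, hfin⟩ := (hS D.s).1 w w hrel
    have hfixed : sw (T5.finHom w y) = T5.finHom w y := by
      rw [← hfin, hy]
    obtain ⟨a, ha⟩ := fixed_mem_range_locB453 s hgen w huniq sw
      (fun x => by rw [hsw, hs]) hval (T5.finHom w y) hfixed
    exact ⟨a, goodFin_of_locB453 y w a ha⟩
  · obtain ⟨a, ha⟩ := locB_surjective453 w he hf (T5.finHom w y)
    exact ⟨a, goodFin_of_locB453 y w a ha⟩

/-- The places `σ^n w`. -/
theorem exists_place_iterate453 (σ : K' ≃+* K') (w : HeightOneSpectrum (𝓞 K')) (n : ℕ) :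
    ∃ w₁ : HeightOneSpectrum (𝓞 K'), w₁.asIdeal
      = (fun I : Ideal (𝓞 K') => Ideal.map (RingOfIntegers.mapRingEquiv σ) I)^[n] w.asIdeal := by
  induction n with
  | zero => exact ⟨w, rfl⟩
  | succ n ih =>
    obtain ⟨w₁, hw₁⟩ := ih
    obtain ⟨w₂, hw₂⟩ := exists_place_map453 σ w₁
    refine ⟨w₂, ?_⟩
    rw [Function.iterate_succ_apply', ← hw₁, hw₂]

/-- The glue: ONE element of `K_v` for all the places over `v`. -/
theorem exists_goodFin_all453 (hS : H305.SigmaLocC305 K') (D : CompData K K')
    (hD : IsCompData D) (hcyc : IsCycExt K K' D.l) (y : Adl K') (hy : D.s.σA y = y)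
    (v : HeightOneSpectrum (𝓞 K)) :
    ∃ a : v.adicCompletion K, ∀ w : HeightOneSpectrum (𝓞 K'), below600 K K' w = v →
      GoodFin453 y v a w := by
  obtain ⟨w₀, rfl⟩ := exists_below_eq453 (K' := K') v
  obtain ⟨a, ha⟩ := exists_goodFin453 hS D hD hcyc y hy w₀
  obtain ⟨s, hs, hgen⟩ := exists_gen453 D hD hcyc
  have hgal : IsGalois K K' := hcyc.galois
  refine ⟨a, fun w hw => ?_⟩
  obtain ⟨n, hn⟩ := exists_iterate_eq453 s D.s.σ hs hgen w₀ w hw
  clear hw
  induction n generalizing w with
  | zero =>
    have : w = w₀ := HeightOneSpectrum.ext hn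
    rw [this]
    exact ha
  | succ n ih =>
    obtain ⟨w₁, hw₁⟩ := exists_place_iterate453 D.s.σ w₀ n
    have hrel : T5.PlaceRel D.s w₁ w := by
      show w.asIdeal = Ideal.map (RingOfIntegers.mapRingEquiv D.s.σ) w₁.asIdeal
      rw [hn, Function.iterate_succ_apply', ← hw₁]
    exact goodFin_step453 hS D hD y hy _ a w₁ w hrel (ih w₁ hw₁)

/-! ## The infinite places -/

/-- `a ∈ K_v` goes to the component of `y` at `u`, in the coordinates of `ℂ`: for EVERY continuous
endomorphism `c` of `ℂ` which intertwines the embeddings of `v` and `u` on `K`. -/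
def GoodInf453 (y : Adl K') (v : InfinitePlace K) (a : v.Completion) (u : InfinitePlace K') :
    Prop :=
  ∀ c : ℂ →+* ℂ, Continuous c →
    (∀ k : K, c (v.embedding k) = u.embedding (algebraMap K K' k)) →
    c (InfinitePlace.Completion.extensionEmbedding v a) = T5.infHom u y

theorem infHom_algebraMap453 (u : InfinitePlace K') (x : K') :
    T5.infHom u (algebraMap K' (Adl K') x) = u.embedding x :=
  extEmb_algebraMap600 u x

/-- Two continuous functions on `K_v` which agree on `K` are equal. -/
theorem eq_of_eq_on_K_inf453 (v : InfinitePlace K) (f g : v.Completion → ℂ)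
    (hf : Continuous f) (hg : Continuous g)
    (h : ∀ k : K, f (algebraMap K v.Completion k) = g (algebraMap K v.Completion k))
    (a : v.Completion) : f a = g a := by
  have hK : ∀ b : WithAbs v.1,
      (⟨(b : v.1.Completion)⟩ : v.Completion) = algebraMap K v.Completion (WithAbs.equiv _ b) := by
    intro b
    rw [InfinitePlace.Completion.algebraMap_apply]
    rfl
  induction a using InfinitePlace.Completion.induction_on with
  | hp => exact isClosed_eq hf hg
  | ih b =>
    rw [hK b]
    exact h _

/-- The coordinate of the local inclusion at an infinite place. -/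
theorem exists_conj_locInf453 (u : InfinitePlace K') :
    ∃ c : ℂ →+* ℂ, Continuous c ∧ (∀ z : ℂ, c (c z) = z) ∧
      ∀ x : (belowInf600 K K' u).Completion,
        InfinitePlace.Completion.extensionEmbedding u (locInf600 K K' u x)
          = c (InfinitePlace.Completion.extensionEmbedding (belowInf600 K K' u) x) := by
  rcases extEmb_locInf600 (K := K) u with h | h
  · exact ⟨RingHom.id ℂ, continuous_id, fun z => rfl, fun x => h x⟩
  · exact ⟨starRingEnd ℂ, Complex.continuous_conj, fun z => Complex.conj_conj z, fun x => h x⟩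

/-- The intertwining property of the coordinate of the local inclusion. -/
theorem conj_locInf_K453 (u : InfinitePlace K') (c : ℂ →+* ℂ)
    (hc : ∀ x : (belowInf600 K K' u).Completion,
        InfinitePlace.Completion.extensionEmbedding u (locInf600 K K' u x)
          = c (InfinitePlace.Completion.extensionEmbedding (belowInf600 K K' u) x)) (k : K) :
    c ((belowInf600 K K' u).embedding k) = u.embedding (algebraMap K K' k) := by
  rw [← extEmb_algebraMap600 (belowInf600 K K' u) k, ← hc, locInf600_algebraMap,
    extEmb_algebraMap600]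

theorem locInf_of_goodInf453 (y : Adl K') (u : InfinitePlace K')
    (a : (belowInf600 K K' u).Completion) (h : GoodInf453 y (belowInf600 K K' u) a u) :
    locInf600 K K' u a = y.1 u := by
  obtain ⟨c, hcc, -, hc⟩ := exists_conj_locInf453 (K := K) u
  have h1 := h c hcc (conj_locInf_K453 u c hc)
  rw [← hc] at h1
  exact (InfinitePlace.Completion.extensionEmbedding u).injective h1

/-- The base case at an infinite place (`K` totally complex). -/
theorem exists_goodInf453 (hcplx : TotCplx K) (y : Adl K') (u : InfinitePlace K') :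
    ∃ a : (belowInf600 K K' u).Completion, GoodInf453 y (belowInf600 K K' u) a u := by
  obtain ⟨c, hcc, hinv, hc⟩ := exists_conj_locInf453 (K := K) u
  obtain ⟨a, ha⟩ := InfinitePlace.Completion.surjective_extensionEmbedding_of_isComplex
    (hcplx (belowInf600 K K' u)) (c (T5.infHom u y))
  refine ⟨a, fun c' hc' hc'K => ?_⟩
  have e := eq_of_eq_on_K_inf453 (belowInf600 K K' u)
    (fun x => c' (InfinitePlace.Completion.extensionEmbedding (belowInf600 K K' u) x))
    (fun x => c (InfinitePlace.Completion.extensionEmbedding (belowInf600 K K' u) x))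
    (hc'.comp (InfinitePlace.Completion.isometry_extensionEmbedding _).continuous)
    (hcc.comp (InfinitePlace.Completion.isometry_extensionEmbedding _).continuous)
    (fun k => by
      show c' _ = c _
      rw [extEmb_algebraMap600, hc'K, conj_locInf_K453 u c hc]) a
  have e' : c' (InfinitePlace.Completion.extensionEmbedding (belowInf600 K K' u) a)
      = c (InfinitePlace.Completion.extensionEmbedding (belowInf600 K K' u) a) := e
  rw [e', ha, hinv]

/-- One step at an infinite place: from `u ∘ σ` to `u`. -/
theorem goodInf_step453 (hS : H305.SigmaLocC305 K') (D : CompData K K') (hD : IsCompData D)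
    (y : Adl K') (hy : D.s.σA y = y) (v : InfinitePlace K) (a : v.Completion)
    (u : InfinitePlace K')
    (hg : GoodInf453 y v a (u.comap (D.s.σ : K' →+* K'))) : GoodInf453 y v a u := by
  have hd : ∃ d : ℂ →+* ℂ, Continuous d ∧ (∀ z : ℂ, d (d z) = z) ∧
      ∀ a' : Adl K', T5.infHom u (D.s.σA a')
        = d (T5.infHom (u.comap (D.s.σ : K' →+* K')) a') := by
    rcases (hS D.s).2 u with h | h
    · exact ⟨RingHom.id ℂ, continuous_id, fun z => rfl, fun a' => h a'⟩
    · exact ⟨starRingEnd ℂ, Complex.continuous_conj, fun z => Complex.conj_conj z,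
        fun a' => h a'⟩
  obtain ⟨d, hdc, hdinv, hd⟩ := hd
  intro c hc hcK
  have hK : ∀ k : K, d (u.embedding (algebraMap K K' k))
      = (u.comap (D.s.σ : K' →+* K')).embedding (algebraMap K K' k) := by
    intro k
    have h1 := hd (algebraMap K' (Adl K') (algebraMap K K' k))
    rw [D.s.compat, sigma_fix453 D hD, infHom_algebraMap453, infHom_algebraMap453] at h1
    rw [h1, hdinv]
  have key := hg (d.comp c) (hdc.comp hc) (fun k => by
    rw [RingHom.comp_apply, hcK, hK])
  rw [RingHom.comp_apply] at key
  rw [← hy, hd, ← key, hdinv]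

theorem goodInf_iterate453 (hS : H305.SigmaLocC305 K') (D : CompData K K') (hD : IsCompData D)
    (y : Adl K') (hy : D.s.σA y = y) (v : InfinitePlace K) (a : v.Completion) (n : ℕ)
    (u : InfinitePlace K')
    (hg : GoodInf453 y v a
      ((fun u' : InfinitePlace K' => u'.comap (D.s.σ : K' →+* K'))^[n] u)) :
    GoodInf453 y v a u := by
  induction n generalizing u with
  | zero => exact hg
  | succ n ih =>
    rw [Function.iterate_succ_apply] at hg
    exact goodInf_step453 hS D hD y hy v a u (ih _ hg)

/-- Two infinite places of `K'` over the same place of `K` are linked by an iterate of `σ`. -/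
theorem exists_iterate_inf453 [IsGalois K K'] (s : K' ≃ₐ[K] K') (σ : K' ≃+* K')
    (hs : ∀ x : K', s x = σ x) (hgen : ∀ t : K' ≃ₐ[K] K', t ∈ Subgroup.zpowers s)
    (u u' : InfinitePlace K') (h : belowInf600 K K' u = belowInf600 K K' u') :
    ∃ n : ℕ, u' = (fun w : InfinitePlace K' => w.comap (σ : K' →+* K'))^[n] u := by
  obtain ⟨t, ht⟩ := InfinitePlace.exists_smul_eq_of_comap_eq (k := K) h
  obtain ⟨n, hn⟩ := exists_pow_eq453 s hgen t⁻¹
  have ht' : t = (s⁻¹) ^ n := by
    rw [inv_pow, hn, inv_inv]
  refine ⟨n, ?_⟩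
  rw [← ht, ht']
  clear ht ht' hn h
  have hstep : ∀ w : InfinitePlace K', s⁻¹ • w = w.comap (σ : K' →+* K') := by
    intro w
    rw [InfinitePlace.smul_eq_comap]
    congr 1
    exact RingHom.ext fun x => hs x
  induction n with
  | zero => rw [pow_zero, one_smul, Function.iterate_zero, id]
  | succ n ih => rw [pow_succ', mul_smul, Function.iterate_succ_apply', ← ih, hstep]

/-- The glue at an infinite place. -/
theorem exists_goodInf_all453 (hS : H305.SigmaLocC305 K') (D : CompData K K')
    (hD : IsCompData D) (hcyc : IsCycExt K K' D.l) (hcplx : TotCplx K) (y : Adl K')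
    (hy : D.s.σA y = y) (v : InfinitePlace K) :
    ∃ a : v.Completion, ∀ u : InfinitePlace K', belowInf600 K K' u = v → GoodInf453 y v a u := by
  have hgal : IsGalois K K' := hcyc.galois
  obtain ⟨u₀, hu₀⟩ := InfinitePlace.comap_surjective (k := K) (K := K') v
  have hu₀' : belowInf600 K K' u₀ = v := hu₀
  subst hu₀'
  obtain ⟨a, ha⟩ := exists_goodInf453 hcplx y u₀
  obtain ⟨s, hs, hgen⟩ := exists_gen453 D hD hcyc
  refine ⟨a, fun u hu => ?_⟩
  obtain ⟨n, hn⟩ := exists_iterate_inf453 s D.s.σ hs hgen u u₀ hu
  apply goodInf_iterate453 hS D hD y hy _ a n u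
  rw [← hn]
  exact ha

/-! ## The sub-leaf -/

/-- **Sub-leaf ONTO** (`H600.IotaOntoC600`, verbatim): every adele of `K'` fixed by `σ_𝔸` is in
the image of the base change `iota600`. -/
theorem iotaOntoC453 (K K' : Type) [Field K] [NumberField K] [Field K'] [NumberField K']
    [Algebra K K'] : H600.IotaOntoC600 K K' := by
  intro hS D hD hcyc hcplx y hy
  choose xi hxi using exists_goodInf_all453 hS D hD hcyc hcplx y hy
  choose xf hxf using exists_goodFin_all453 hS D hD hcyc y hy
  have hloc : ∀ w : HeightOneSpectrum (𝓞 K'),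
      locB600 K K' w (xf (below600 K K' w)) = y.2 w := fun w =>
    locB_of_goodFin453 y w _ (hxf _ w rfl)
  have hint : ∀ᶠ v : HeightOneSpectrum (𝓞 K) in Filter.cofinite,
      xf v ∈ (v.adicCompletionIntegers K : Set (v.adicCompletion K)) := by
    have hy2 : ∀ᶠ w : HeightOneSpectrum (𝓞 K') in Filter.cofinite,
        y.2 w ∈ (w.adicCompletionIntegers K' : Set (w.adicCompletion K')) := y.2.2
    rw [Filter.eventually_cofinite] at hy2 ⊢
    refine (hy2.image (below600 K K')).subset ?_
    intro v hv
    obtain ⟨w, rfl⟩ := exists_below_eq453 (K' := K') v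
    refine ⟨w, ?_, rfl⟩
    intro hw
    apply hv
    have hw' : locB600 K K' w (xf (below600 K K' w)) ∈ w.adicCompletionIntegers K' := by
      rw [hloc]
      exact hw
    exact (locB600_mem_integers_iff w _).1 hw'
  refine ⟨(xi, ⟨xf, hint⟩), ?_⟩
  refine Prod.ext ?_ ?_
  · funext u
    exact locInf_of_goodInf453 y u _ (hxi _ u rfl)
  · refine RestrictedProduct.ext _ _ fun w => ?_
    exact hloc w

/-- The statement of the sub-leaf, unfolded (type check against the Prop of the spec). -/
example (K K' : Type) [Field K] [NumberField K] [Field K'] [NumberField K'] [Algebra K K'] :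
    H305.SigmaLocC305 K' →
    ∀ D : CompData K K', IsCompData D → IsCycExt K K' D.l → TotCplx K →
      ∀ y : Adl K', D.s.σA y = y → ∃ x : Adl K, iota600 K K' x = y :=
  iotaOntoC453 K K'

/-! ## Appendix: the equation lemmas of the definitions are realised HERE -/

theorem eqns_realised_iotaOnto453 : True := by
  have _a1 := @GoodFin453.eq_1
  have _a2 := @GoodFin453.eq_def
  have _a3 := @GoodFin453.eq_unfold
  have _a4 := @GoodInf453.eq_1
  have _a5 := @GoodInf453.eq_def
  have _a6 := @GoodInf453.eq_unfold
  trivial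

end Fermat.Agent.LT.T7.H453

end
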