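import Mathlib
import Fermat.Agent.LT.T5.H599.Diag
import Fermat.Agent.LT.T7.H193.ProjSpec

/-!
# Row LT, tower T7, node T7.L2.1 `SupplyC`, sub-station PROJ, leaf PROJ.1 `TranslInvC` (helper453)

OFF-MAIN.  Registry row 2136 (T7.L2.1.P01).  Spec: `T7/H193/ProjSpec.lean` of helper193
(sha256 977a85e322a5d9c9), asset `T5/H599/Diag.lean` of helper599 (byte-identical copies).

    translInvC453 : H193.TranslInvC K

i.e. for every frame `R` and every function `Φ` on `GL₂(𝔸_K)` which is left `GL₂(K)`-invariant
and right `r`-invariant (NO measurability or integrability hypothesis),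
`∫_F Φ(x h) dx = ∫_F Φ(x) dx` for every `h`.

Proof: `F` is a fundamental domain for the action `(γ, n) • z = γ rⁿ z` of `GL₂(K) × ℤ`
(`isFundamentalDomain599`); so is `F h = {y | y h⁻¹ ∈ F}` (`existsUnique_iota_mul_mem599` at
`z h⁻¹`); `Φ` is invariant under the action (`r` is central); the integrals of an invariant
function over two fundamental domains agree (`IsFundamentalDomain.setIntegral_eq`); right
translation by `h` preserves `μ` (`IsFrame.right_inv`).
-/

set_option autoImplicit false

open IsDedekindDomain NumberField MeasureTheory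

noncomputable section

namespace Fermat.Agent.LT.T7.H453

open Fermat.Agent.LT.H556 Fermat.Agent.LT.H556.A0 Fermat.Agent.LT

attribute [local instance] Fermat.Agent.LT.T5.instMeasurableSpaceG

variable {K : Type} [Field K] [NumberField K]

/-- A right `r`-invariant function is right invariant under the natural powers of `r`. -/
theorem right_pow453 {Φ : G K → ℂ} {r : G K} (hΦ : ∀ x : G K, Φ (x * r) = Φ x) (n : ℕ)
    (x : G K) : Φ (x * r ^ n) = Φ x := by
  induction n with
  | zero => simp
  | succ n ih => rw [pow_succ, ← mul_assoc, hΦ, ih]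

/-- A right `r`-invariant function is right invariant under all the powers of `r`. -/
theorem right_zpow453 {Φ : G K → ℂ} {r : G K} (hΦ : ∀ x : G K, Φ (x * r) = Φ x) (n : ℤ)
    (x : G K) : Φ (x * r ^ n) = Φ x := by
  obtain ⟨m, rfl | rfl⟩ := Int.eq_nat_or_neg n
  · rw [zpow_natCast]
    exact right_pow453 hΦ m x
  · have h := right_pow453 hΦ m (x * r ^ (-(m : ℤ)))
    rw [mul_assoc, ← zpow_natCast, ← zpow_add, neg_add_cancel, zpow_zero, mul_one] at h
    exact h.symm

/-- A function which is left `GL₂(K)`-invariant and right `r`-invariant is invariant under the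
action `(γ, n) • z = γ rⁿ z` of `GL₂(K) × ℤ`. -/
theorem iota_inv453 {Φ : G K → ℂ} {r : G K} (hr : T5.IsRayGen r)
    (hl : ∀ (γ : GL (Fin 2) K) (x : G K), Φ (T5.ratG γ * x) = Φ x)
    (hΦ : ∀ x : G K, Φ (x * r) = Φ x) (p : T5.H599.Gam599 K) (x : G K) :
    Φ (T5.H599.iota599 hr p * x) = Φ x := by
  rw [T5.H599.iota_apply599, mul_assoc, hl, T5.H599.zpow_commute599 hr]
  exact right_zpow453 hΦ _ x

/-- Right translation by `h` preserves the measure of a frame. -/
theorem measurePreserving_mul_right453 {μ : Measure (G K)} {F : Set (G K)} (hF : T5.IsFrame μ F)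
    (h : G K) : MeasurePreserving (fun x : G K => x * h) μ μ := by
  have hB : BorelSpace (G K) := ⟨rfl⟩
  have hm : Measurable fun x : G K => x * h := (continuous_mul_const h).measurable
  refine ⟨hm, ?_⟩
  ext A hA
  rw [Measure.map_apply hm hA]
  exact hF.right_inv h A hA

/-- The action of `GL₂(K) × ℤ`, unfolded. -/
theorem smul_def453 {r : G K} (hr : T5.IsRayGen r) (p : T5.H599.Gam599 K) (z : G K) :
    @HSMul.hSMul (T5.H599.Gam599 K) (G K) (G K)
      (@instHSMul _ _ (T5.H599.act599 hr).toSMul) p z = T5.H599.iota599 hr p * z :=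
  rfl

/-- The right translate of the fundamental domain is a fundamental domain for `GL₂(K) × ℤ`. -/
theorem isFundamentalDomain_translate453 (hAN : T1.AdNormC K) {μ : Measure (G K)}
    {F : Set (G K)} (hF : T5.IsFrame μ F) {r : G K} (hr : T5.IsRayGen r) (h : G K) :
    @IsFundamentalDomain (T5.H599.Gam599 K) (G K) _ (T5.H599.act599 hr).toSMul _
      ((fun x : G K => x * h⁻¹) ⁻¹' F) μ := by
  have hB : BorelSpace (G K) := ⟨rfl⟩
  let A := T5.H599.act599 hr
  refine IsFundamentalDomain.mk' ?_ fun z => ?_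
  · exact ((continuous_mul_const h⁻¹).measurable hF.meas).nullMeasurableSet
  · have hz := T5.H599.existsUnique_iota_mul_mem599 hAN hF hr (z * h⁻¹)
    simp only [Set.mem_preimage, smul_def453 hr, mul_assoc]
    exact hz

/-- **LEAF PROJ.1 = TRANSL-INV** (`H193.TranslInvC`, verbatim). -/
theorem translInvC453 (K : Type) [Field K] [NumberField K] : H193.TranslInvC K := by
  intro hAN R hR Φ hl hΦ h
  have hF : T5.IsFrame R.μ R.F := hR.frame
  have hr : T5.IsRayGen R.r := hR.ray
  have hB : BorelSpace (G K) := ⟨rfl⟩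
  have hH := hF.haar
  have hC := T5.H599.countable_gam599 K
  let A := T5.H599.act599 hr
  have hM := T5.H599.measurableConstSMul599 hr
  have hS := T5.H599.smulInvariantMeasure599 R.μ hr
  have hfd := T5.H599.isFundamentalDomain599 hAN hF hr
  have hfd' := isFundamentalDomain_translate453 hAN hF hr h
  have hinv : ∀ (p : T5.H599.Gam599 K) (x : G K), Φ (p • x) = Φ x := by
    intro p x
    rw [smul_def453 hr]
    exact iota_inv453 hr hl hΦ p x
  have himg : (fun x : G K => x * h) '' R.F = (fun x : G K => x * h⁻¹) ⁻¹' R.F := by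
    ext y
    rw [Set.mem_preimage]
    constructor
    · rintro ⟨x, hx, rfl⟩
      rwa [mul_inv_cancel_right]
    · intro hy
      exact ⟨y * h⁻¹, hy, inv_mul_cancel_right y h⟩
  have hemb : MeasurableEmbedding fun x : G K => x * h :=
    (Homeomorph.mulRight h).measurableEmbedding
  calc ∫ x in R.F, Φ (x * h) ∂(R.μ)
      = ∫ y in (fun x : G K => x * h) '' R.F, Φ y ∂(R.μ) :=
        ((measurePreserving_mul_right453 hF h).setIntegral_image_emb hemb Φ R.F).symm
    _ = ∫ y in (fun x : G K => x * h⁻¹) ⁻¹' R.F, Φ y ∂(R.μ) := by rw [himg]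
    _ = ∫ x in R.F, Φ x ∂(R.μ) := hfd'.setIntegral_eq hfd hinv

/-- The statement of the leaf, unfolded (type check against the Prop of the spec). -/
example (K : Type) [Field K] [NumberField K] :
    T1.AdNormC K → ∀ R : Frame5 K, IsFrame5 R → ∀ Φ : G K → ℂ,
      (∀ (γ : GL (Fin 2) K) (x : G K), Φ (T5.ratG γ * x) = Φ x) →
      (∀ x : G K, Φ (x * R.r) = Φ x) →
      ∀ h : G K, ∫ x in R.F, Φ (x * h) ∂(R.μ) = ∫ x in R.F, Φ x ∂(R.μ) :=
  translInvC453 K

end Fermat.Agent.LT.T7.H453

end
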