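import Mathlib
import Fermat.Agent.LT.T7.H751.FactDownQSpec

/-!
# Row LT, tower T7, node Q2.7.7 `MQ298.FactDownQC298`, leaf FDQ.7 `PtFactQC751` (helper453)

OFF-MAIN.  No hole, nothing assumed.  Spec: `T7/H751/FactDownQSpec.lean` (sha256 aa280353,
helper751@e9ffa788e), byte-identical copy, with its closure.  Mathlib + the definitions of the
spec only.  No definition is introduced here; no equation lemma of a foreign definition is
realised here (`rfl`, `show`, `exact`, `if_pos` only).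

    ptFactQC453 : H751.PtFactQC751

For `y ∈ Out_S`, `γ` integral outside `S` and the ray generator `r`:
`pureQ298 S f₀ Fr (y⁻¹ γ y r^j) = ∏_{v ∈ S} f₀ v (y_v⁻¹ γ_v y_v) · Fr (y_∞⁻¹ (γ r^j)_∞ y_∞)`.
`Out_S` is a group which contains `γ` and `r^j` (trivial at the finite places); the components
are homomorphisms; the real component of `r` is a scalar matrix.  Port of the proof of the cubic
mirror `H558.PtFactC558` by helper454 (`T7/H454/PtFact.lean`), one real place, `GL₂(ℝ)`.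
-/

set_option autoImplicit false

open IsDedekindDomain NumberField

noncomputable section

namespace Fermat.Agent.LT.T7.H453.PtFactQ

open Fermat.Agent.LT.H556 Fermat.Agent.LT.H556.A0 Fermat.Agent.LT.T7 Fermat.Agent.LT.T7.H305

variable {K : Type} [Field K] [NumberField K]

/-! ## 1. Components -/

theorem onG_idQ453 (y : G K) : (T5.AdelicAut.id K).onG y = y := by
  apply Units.ext
  ext i j
  rfl

theorem finGL_ratGQ453 (v : HeightOneSpectrum (𝓞 K)) (γ : GL (Fin 2) K) :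
    finGL305 v (T5.ratG γ) = locG305 v γ := by
  apply Units.ext
  ext i j
  rfl

theorem finComp_eq_finGLQ453 (v : HeightOneSpectrum (𝓞 K)) (g : G K) :
    finComp v g = (finGL305 v g : Matrix (Fin 2) (Fin 2) (v.adicCompletion K)) := rfl

theorem finGL_eq_oneQ453 {v : HeightOneSpectrum (𝓞 K)} {g : G K} (h : TrivAtFin v g) :
    finGL305 v g = 1 := by
  apply Units.ext
  rw [← finComp_eq_finGLQ453]
  exact h

theorem finComp_mulQ453 (v : HeightOneSpectrum (𝓞 K)) (g h : G K) :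
    finComp v (g * h) = finComp v g * finComp v h := by
  rw [finComp_eq_finGLQ453, finComp_eq_finGLQ453, finComp_eq_finGLQ453, map_mul, Units.val_mul]

/-! ## 2. `Out_S` is a group -/

theorem isIntegralAt_mulQ453 (v : HeightOneSpectrum (𝓞 K)) {g h : G K} (hg : IsIntegralAt v g)
    (hh : IsIntegralAt v h) : IsIntegralAt v (g * h) := by
  intro i j
  rw [finComp_mulQ453, Matrix.mul_apply]
  exact sum_mem fun k _ => mul_mem (hg i k) (hh k j)

theorem intAt_mulQ453 {v : HeightOneSpectrum (𝓞 K)} {g h : G K}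
    (hg : IsIntegralAt v g ∧ IsIntegralAt v g⁻¹) (hh : IsIntegralAt v h ∧ IsIntegralAt v h⁻¹) :
    IsIntegralAt v (g * h) ∧ IsIntegralAt v (g * h)⁻¹ := by
  refine ⟨isIntegralAt_mulQ453 v hg.1 hh.1, ?_⟩
  rw [mul_inv_rev]
  exact isIntegralAt_mulQ453 v hh.2 hg.2

theorem intAt_invQ453 {v : HeightOneSpectrum (𝓞 K)} {g : G K}
    (hg : IsIntegralAt v g ∧ IsIntegralAt v g⁻¹) :
    IsIntegralAt v g⁻¹ ∧ IsIntegralAt v g⁻¹⁻¹ := by
  refine ⟨hg.2, ?_⟩
  rw [inv_inv]
  exact hg.1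

theorem isIntegralAt_of_trivQ453 {v : HeightOneSpectrum (𝓞 K)} {g : G K} (hg : TrivAtFin v g) :
    IsIntegralAt v g := by
  intro i j
  have h1 : finComp v g = 1 := hg
  rw [h1, Matrix.one_apply]
  split_ifs
  · exact one_mem _
  · exact zero_mem _

theorem trivAtFin_of_finGLQ453 {v : HeightOneSpectrum (𝓞 K)} {g : G K} (h : finGL305 v g = 1) :
    TrivAtFin v g := by
  show finComp v g = 1
  rw [finComp_eq_finGLQ453, h]
  rfl

theorem intAt_of_trivQ453 {v : HeightOneSpectrum (𝓞 K)} {g : G K} (hg : TrivAtFin v g) :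
    IsIntegralAt v g ∧ IsIntegralAt v g⁻¹ := by
  refine ⟨isIntegralAt_of_trivQ453 hg, isIntegralAt_of_trivQ453 (trivAtFin_of_finGLQ453 ?_)⟩
  rw [map_inv, finGL_eq_oneQ453 hg, inv_one]

/-- An element of `U(0)` has integral entries. -/
theorem mem_integers_of_sub_oneQ453 (v : HeightOneSpectrum (𝓞 K))
    (M : Matrix (Fin 2) (Fin 2) (v.adicCompletion K)) (i j : Fin 2)
    (h : Valued.v (M i j - (1 : Matrix (Fin 2) (Fin 2) (v.adicCompletion K)) i j)
      ≤ WithZero.exp (-((0 : ℕ) : ℤ))) :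
    M i j ∈ v.adicCompletionIntegers K := by
  have h0 : WithZero.exp (-((0 : ℕ) : ℤ)) = (1 : WithZero (Multiplicative ℤ)) := by
    rw [Nat.cast_zero, neg_zero, WithZero.exp_zero]
  rw [h0] at h
  have h1 : M i j - (1 : Matrix (Fin 2) (Fin 2) (v.adicCompletion K)) i j
      ∈ v.adicCompletionIntegers K :=
    (HeightOneSpectrum.mem_adicCompletionIntegers (𝓞 K) K v).mpr h
  have h2 : (1 : Matrix (Fin 2) (Fin 2) (v.adicCompletion K)) i j
      ∈ v.adicCompletionIntegers K := by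
    rw [Matrix.one_apply]
    split_ifs
    · exact one_mem _
    · exact zero_mem _
  have h3 := add_mem h1 h2
  rwa [sub_add_cancel] at h3

theorem intAt_ratGQ453 {v : HeightOneSpectrum (𝓞 K)} {γ : GL (Fin 2) K}
    (h : T6.InU 0 (locG305 v γ)) :
    IsIntegralAt v (T5.ratG γ) ∧ IsIntegralAt v (T5.ratG γ)⁻¹ := by
  constructor
  · intro i j
    rw [finComp_eq_finGLQ453, finGL_ratGQ453]
    exact mem_integers_of_sub_oneQ453 v _ i j (h i j).1
  · intro i j
    rw [finComp_eq_finGLQ453, map_inv, finGL_ratGQ453]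
    exact mem_integers_of_sub_oneQ453 v _ i j (h i j).2

theorem finGL_ray_zpowQ453 {r : G K} (hr : T5.IsRayGen r) (v : HeightOneSpectrum (𝓞 K))
    (j : ℤ) : finGL305 v (r ^ j) = 1 := by
  rw [map_zpow, finGL_eq_oneQ453 (hr.1 v), one_zpow]

/-! ## 3. The ray generator is central at the real place of `ℚ` -/

/-- The real component, seen in `ℂ`, is the component at the infinite place of `ℚ`. -/
theorem reGL_coeQ453 (g : G ℚ) (i k : Fin 2) :
    (((MQ298.reGLQ298 g : Matrix (Fin 2) (Fin 2) ℝ) i k : ℝ) : ℂ)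
      = infComp Rat.infinitePlace g i k :=
  InfinitePlace.Completion.extensionEmbeddingOfIsReal_apply Rat.isReal_infinitePlace _

theorem reGL_ray_diagQ453 {r : G ℚ} (hr : T5.IsRayGen r) :
    ∃ t : ℝ, (MQ298.reGLQ298 r : Matrix (Fin 2) (Fin 2) ℝ) = Matrix.diagonal fun _ => t := by
  obtain ⟨t, -, -, ht⟩ := hr.2
  refine ⟨t, ?_⟩
  ext i k
  apply Complex.ofReal_injective
  rw [reGL_coeQ453, ht Rat.infinitePlace]
  by_cases hik : i = k
  · subst hik
    rw [Matrix.diagonal_apply_eq, Matrix.diagonal_apply_eq]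
  · rw [Matrix.diagonal_apply_ne _ hik, Matrix.diagonal_apply_ne _ hik, Complex.ofReal_zero]

theorem commute_reGL_rayQ453 {r : G ℚ} (hr : T5.IsRayGen r) (Y : GL (Fin 2) ℝ) :
    Commute (MQ298.reGLQ298 r) Y := by
  obtain ⟨t, h1⟩ := reGL_ray_diagQ453 hr
  apply Units.ext
  rw [Units.val_mul, Units.val_mul, h1]
  ext i k
  rw [Matrix.diagonal_mul, Matrix.mul_diagonal, mul_comm]

/-! ## 4. The leaf -/

/-- **LEAF FDQ.7 = PT-FACT over `ℚ`.** -/
theorem ptFactQC453 : Fermat.Agent.LT.T7.H751.PtFactQC751 := by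
  intro r hr S f₀ Fr γ hγ y j hy
  rw [onG_idQ453]
  have hout : OutT305 S (y⁻¹ * T5.ratG γ * y * r ^ j) := by
    intro v hv
    have hyv : IsIntegralAt v y ∧ IsIntegralAt v y⁻¹ := hy v hv
    have hγv : IsIntegralAt v (T5.ratG γ) ∧ IsIntegralAt v (T5.ratG γ)⁻¹ :=
      intAt_ratGQ453 (hγ v hv)
    have hrv : IsIntegralAt v (r ^ j) ∧ IsIntegralAt v (r ^ j)⁻¹ :=
      intAt_of_trivQ453 (trivAtFin_of_finGLQ453 (finGL_ray_zpowQ453 hr v j))
    exact intAt_mulQ453 (intAt_mulQ453 (intAt_mulQ453 (intAt_invQ453 hyv) hγv) hyv) hrv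
  have e : MQ298.pureQ298 S f₀ Fr (y⁻¹ * T5.ratG γ * y * r ^ j)
      = (∏ v ∈ S, f₀ v (finGL305 v (y⁻¹ * T5.ratG γ * y * r ^ j))) *
        Fr (MQ298.reGLQ298 (y⁻¹ * T5.ratG γ * y * r ^ j)) :=
    if_pos hout
  rw [e]
  have hfin : ∀ v : HeightOneSpectrum (𝓞 ℚ), finGL305 v (y⁻¹ * T5.ratG γ * y * r ^ j)
      = (finGL305 v y)⁻¹ * locG305 v γ * finGL305 v y := by
    intro v
    rw [map_mul, map_mul, map_mul, map_inv, finGL_ratGQ453, finGL_ray_zpowQ453 hr v j, mul_one]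
  have hre : MQ298.reGLQ298 (y⁻¹ * T5.ratG γ * y * r ^ j)
      = (MQ298.reGLQ298 y)⁻¹ * MQ298.reGLQ298 (T5.ratG γ * r ^ j) * MQ298.reGLQ298 y := by
    have hc : Commute (MQ298.reGLQ298 r ^ j) (MQ298.reGLQ298 y) :=
      (commute_reGL_rayQ453 hr (MQ298.reGLQ298 y)).zpow_left j
    rw [map_mul, map_mul, map_mul, map_mul, map_inv, map_zpow, mul_assoc, mul_assoc, mul_assoc,
      mul_assoc, hc.eq]
  have e1 : (∏ v ∈ S, f₀ v (finGL305 v (y⁻¹ * T5.ratG γ * y * r ^ j)))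
      = ∏ v ∈ S, f₀ v ((finGL305 v y)⁻¹ * locG305 v γ * finGL305 v y) :=
    Finset.prod_congr rfl fun v _ => by rw [hfin v]
  rw [e1, hre]

/-- The statement of the leaf, unfolded (check of the frozen Prop). -/
example :
    ∀ r : G ℚ, T5.IsRayGen r →
      ∀ (S : Finset (HeightOneSpectrum (𝓞 ℚ)))
        (f₀ : ∀ v : HeightOneSpectrum (𝓞 ℚ), GL (Fin 2) (v.adicCompletion ℚ) → ℂ)
        (Fr : GL (Fin 2) ℝ → ℂ) (γ : GL (Fin 2) ℚ), IntOut305 S γ →
      ∀ (y : G ℚ) (j : ℤ), OutT305 S y →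
        MQ298.pureQ298 S f₀ Fr (y⁻¹ * T5.ratG γ * (T5.AdelicAut.id ℚ).onG y * r ^ j)
          = (∏ v ∈ S, f₀ v ((finGL305 v y)⁻¹ * locG305 v γ * finGL305 v y)) *
            Fr ((MQ298.reGLQ298 y)⁻¹ * MQ298.reGLQ298 (T5.ratG γ * r ^ j) *
              MQ298.reGLQ298 y) :=
  ptFactQC453

end Fermat.Agent.LT.T7.H453.PtFactQ

end
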